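/-
P-CFT LOCAL, row LOC-4 (helper44), Part B2/B3: the field dictionary.
For a finite Galois extension `F / E`, an injective homomorphism `ι : H →* Gal(F/E)` and the
`Gal(F/E)`-module `Fˣ`:

* `h1_res_subsingleton` : `H¹(H, Fˣ) = 0` (Hilbert 90 for the subgroup `ι H`);
* `h2_layer_equiv` : for `N ⊴ H`, `H²(H ⧸ N, (Fˣ)^N) ≃ H²(Gal(M'/M), M'ˣ)` with `M = F^{ι H}`,
  `M' = F^{ι N}` (as an intermediate field of `F / M`).

Mathlib only.
-/
import Mathlib

set_option autoImplicit false
set_option linter.style.haveILetI false
set_option linter.unusedSectionVars false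

namespace Fermat.Agent.H44.CFT

open CategoryTheory groupCohomology Rep

section Transport

variable {k : Type} [CommRing k] {H G' : Type} [Group H] [Group G'] (e : H ≃* G')
  (B : Rep k G') (N : Subgroup H) [N.Normal] (N' : Subgroup G') [N'.Normal]
  (hN : N.map e.toMonoidHom = N')

include hN in
theorem invariants_res_eq :
    Representation.invariants ((res e.toMonoidHom B).ρ.comp N.subtype) =
      Representation.invariants (B.ρ.comp N'.subtype) := by
  ext x
  simp only [Representation.mem_invariants]
  constructor
  · intro h n'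
    obtain ⟨n, hn, hn'⟩ : (n' : G') ∈ N.map e.toMonoidHom := hN ▸ n'.2
    have := h ⟨n, hn⟩
    simpa [← hn'] using this
  · intro h n
    have hmem : e n ∈ N' := hN ▸ Subgroup.mem_map_of_mem _ n.2
    exact h ⟨e n, hmem⟩

/-- Transport of `H²(H ⧸ N, B^N)` along a group isomorphism `e : H ≃* G'`. -/
noncomputable def h2QuotTransport :
    groupCohomology.H2 ((res e.toMonoidHom B).quotientToInvariants N) ≅
      groupCohomology.H2 (B.quotientToInvariants N') :=
  mapIso (A := B.quotientToInvariants N') (B := (res e.toMonoidHom B).quotientToInvariants N)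
    (QuotientGroup.congr N N' e hN)
    (LinearEquiv.ofEq _ _ (invariants_res_eq e B N N' hN))
    (by
      intro g
      induction g using QuotientGroup.induction_on with | H h =>
      ext ⟨x, hx⟩
      rfl) 2

end Transport

section GaloisLayer

variable (E F : Type) [Field E] [Field F] [Algebra E F]
  (N : Subgroup (F ≃ₐ[E] F))

/-- `(Fˣ)^N → (F^N)ˣ`. -/
noncomputable def unitsInvFun
    (x : ↥(Representation.invariants ((Rep.ofAlgebraAutOnUnits E F).ρ.comp N.subtype))) :
    (IntermediateField.fixedField N)ˣ :=
  Units.mk0 ⟨((Additive.toMul (show Additive Fˣ from x.1) : Fˣ) : F), by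
    rw [IntermediateField.mem_fixedField_iff]
    intro σ hσ
    have := x.2 ⟨σ, hσ⟩
    exact congrArg (fun t : Additive Fˣ => ((Additive.toMul t : Fˣ) : F)) this⟩
    (by
      intro h
      exact Units.ne_zero (Additive.toMul (show Additive Fˣ from x.1))
        (congrArg Subtype.val h))

theorem unitsInvFun_val
    (x : ↥(Representation.invariants ((Rep.ofAlgebraAutOnUnits E F).ρ.comp N.subtype))) :
    (((unitsInvFun E F N x : (IntermediateField.fixedField N)ˣ) :
      IntermediateField.fixedField N) : F) =
      ((Additive.toMul (show Additive Fˣ from x.1) : Fˣ) : F) := rfl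

/-- `(Fˣ)^N → (F^N)ˣ` as an additive homomorphism. -/
noncomputable def unitsInvAddHom :
    ↥(Representation.invariants ((Rep.ofAlgebraAutOnUnits E F).ρ.comp N.subtype)) →+
      Additive (IntermediateField.fixedField N)ˣ where
  toFun x := Additive.ofMul (unitsInvFun E F N x)
  map_zero' := by
    apply Additive.toMul.injective
    apply Units.ext
    apply Subtype.ext
    rfl
  map_add' x y := by
    apply Additive.toMul.injective
    apply Units.ext
    apply Subtype.ext
    rfl

/-- `(F^N)ˣ → (Fˣ)^N`. -/
noncomputable def unitsInvInv (y : Additive (IntermediateField.fixedField N)ˣ) :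
    ↥(Representation.invariants ((Rep.ofAlgebraAutOnUnits E F).ρ.comp N.subtype)) :=
  ⟨(Additive.ofMul (Units.map
      (algebraMap (IntermediateField.fixedField N) F : IntermediateField.fixedField N →* F)
      (Additive.toMul y)) : Additive Fˣ), by
    intro σ
    change Additive.ofMul ((σ : F ≃ₐ[E] F) • Units.map
      (algebraMap (IntermediateField.fixedField N) F : IntermediateField.fixedField N →* F)
      (Additive.toMul y)) = Additive.ofMul _
    congr 1
    ext
    have := (IntermediateField.mem_fixedField_iff N _).1
      ((Additive.toMul y : (IntermediateField.fixedField N)ˣ) :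
        IntermediateField.fixedField N).2 σ.1 σ.2
    simpa [AlgEquiv.smul_units_def] using this⟩

/-- `(Fˣ)^N ≃ (F^N)ˣ`, `ℤ`-linearly. -/
noncomputable def unitsInvariantsEquiv :
    ↥(Representation.invariants ((Rep.ofAlgebraAutOnUnits E F).ρ.comp N.subtype)) ≃ₗ[ℤ]
      Additive (IntermediateField.fixedField N)ˣ where
  toFun x := unitsInvAddHom E F N x
  map_add' x y := map_add (unitsInvAddHom E F N) x y
  map_smul' n x := by
    rw [RingHom.id_apply]
    exact map_zsmul (unitsInvAddHom E F N) n x
  invFun y := unitsInvInv E F N y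
  left_inv x := by
    apply Subtype.ext
    apply Additive.toMul.injective
    apply Units.ext
    rfl
  right_inv y := by
    apply Additive.toMul.injective
    apply Units.ext
    apply Subtype.ext
    rfl

variable [FiniteDimensional E F] [IsGalois E F] [N.Normal]

/-- `H²(Gal(F/E) ⧸ N, (Fˣ)^N) ≅ H²(Gal(F^N/E), (F^N)ˣ)`. -/
noncomputable def h2LayerIso :
    groupCohomology.H2 ((Rep.ofAlgebraAutOnUnits E F).quotientToInvariants N) ≅
      groupCohomology.H2 (Rep.ofAlgebraAutOnUnits E (IntermediateField.fixedField N)) :=
  mapIso (A := Rep.ofAlgebraAutOnUnits E (IntermediateField.fixedField N))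
    (B := (Rep.ofAlgebraAutOnUnits E F).quotientToInvariants N)
    (IsGalois.normalAutEquivQuotient N)
    (unitsInvariantsEquiv E F N)
    (by
      intro g
      induction g using QuotientGroup.induction_on with | H σ =>
      ext x
      apply Additive.toMul.injective
      apply Units.ext
      apply Subtype.ext
      exact (AlgEquiv.restrictNormal_commutes σ (IntermediateField.fixedField N)
        (unitsInvFun E F N x : IntermediateField.fixedField N)).symm) 2

end GaloisLayer

section Dict

variable {E F : Type} [Field E] [Field F] [Algebra E F] [FiniteDimensional E F]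
variable {H : Type} [Group H] (ι : H →* (F ≃ₐ[E] F)) (hι : Function.Injective ι)

/-- The fixed field of the image of `ι`. -/
noncomputable abbrev layerBase : IntermediateField E F := IntermediateField.fixedField ι.range

/-- `H ≃ Gal(F / F^{ι H})`. -/
noncomputable def layerEquiv : H ≃* (F ≃ₐ[layerBase ι] F) :=
  (MonoidHom.ofInjective hι).trans (IntermediateField.subgroupEquivAlgEquiv ι.range)

theorem layerEquiv_apply (h : H) (x : F) : layerEquiv ι hι h x = ι h x := rfl

/-- The restriction of `Fˣ` along `ι` is the restriction of the `Gal(F/M)`-module `Fˣ` along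
`H ≃ Gal(F/M)`. -/
theorem res_eq_res_layerEquiv :
    res ι (Rep.ofAlgebraAutOnUnits E F) =
      res (layerEquiv ι hι).toMonoidHom (Rep.ofAlgebraAutOnUnits (layerBase ι) F) := by
  change Rep.of _ = Rep.of _
  congr 1

include hι in
/-- Hilbert 90 for the subgroup `ι H` of `Gal(F/E)`. -/
theorem h1_res_subsingleton :
    Subsingleton (groupCohomology.H1 (res ι (Rep.ofAlgebraAutOnUnits E F))) := by
  rw [res_eq_res_layerEquiv ι hι]
  let i := mapIso (A := Rep.ofAlgebraAutOnUnits (layerBase ι) F)
    (B := res (layerEquiv ι hι).toMonoidHom (Rep.ofAlgebraAutOnUnits (layerBase ι) F))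
    (layerEquiv ι hι) (LinearEquiv.refl ℤ _) (fun g => rfl) 1
  haveI : Subsingleton (groupCohomology.H1 (Rep.ofAlgebraAutOnUnits (layerBase ι) F)) :=
    Unique.instSubsingleton
  exact i.toLinearEquiv.toEquiv.subsingleton

section Layer

variable [IsGalois E F] (N : Subgroup H) [hNn : N.Normal]

/-- The image of `N` in `Gal(F / F^{ι H})`. -/
noncomputable abbrev layerSub : Subgroup (F ≃ₐ[layerBase ι] F) :=
  N.map (layerEquiv ι hι).toMonoidHom

instance layerSub_normal : (layerSub ι hι N).Normal :=
  Subgroup.Normal.map hNn _ (layerEquiv ι hι).surjective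

/-- The top field of the layer cut out by `N ⊴ H`: the fixed field of `ι N`, as an intermediate
field of `F / F^{ι H}`. -/
noncomputable abbrev layerTop : IntermediateField (layerBase ι) F :=
  IntermediateField.fixedField (layerSub ι hι N)

instance layerTop_isGalois : IsGalois (layerBase ι) (layerTop ι hι N) :=
  IsGalois.of_fixedField_normal_subgroup (layerSub ι hι N)

theorem layer_index : (layerSub ι hι N).index = N.index :=
  Subgroup.index_map_equiv N (layerEquiv ι hι)

theorem layer_finrank : Module.finrank (layerBase ι) (layerTop ι hι N) = N.index := by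
  rw [← layer_index ι hι N, ← IsGalois.card_aut_eq_finrank, Subgroup.index,
    Nat.card_congr (IsGalois.normalAutEquivQuotient (layerSub ι hι N)).toEquiv]

/-- `H²(H ⧸ N, (Fˣ)^N) ≃ H²(Gal(M'/M), M'ˣ)`, `M = F^{ι H}`, `M' = F^{ι N}`. -/
theorem h2_layer_equiv :
    Nonempty (groupCohomology.H2 ((res ι (Rep.ofAlgebraAutOnUnits E F)).quotientToInvariants N) ≃
      groupCohomology.H2 (Rep.ofAlgebraAutOnUnits (layerBase ι) (layerTop ι hι N))) := by
  rw [res_eq_res_layerEquiv ι hι]
  exact ⟨((h2QuotTransport (layerEquiv ι hι) (Rep.ofAlgebraAutOnUnits (layerBase ι) F) N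
    (layerSub ι hι N) rfl) ≪≫
    (h2LayerIso (layerBase ι) F (layerSub ι hι N))).toLinearEquiv.toEquiv⟩

end Layer

end Dict

end Fermat.Agent.H44.CFT
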