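/-
P-CFT LOCAL, row LOC-4 (helper44), Part B1: for a finite cyclic Galois extension `L / K`,
`#H²(Gal(L/K), Lˣ) = [Kˣ : N_{L/K} Lˣ]` (Mathlib periodicity for finite cyclic groups).
Mathlib only.
-/
import Mathlib

set_option autoImplicit false
set_option linter.style.haveILetI false

namespace Fermat.Agent.H44.CFT

open CategoryTheory groupCohomology Rep Additive

section Cyclic

variable {k G : Type} [CommRing k] [CommGroup G] [Fintype G] (A : Rep k G) (g : G)
  (hg : ∀ x, x ∈ Subgroup.zpowers g)

set_option backward.isDefEq.respectTransparency false in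
include hg in
/-- The periodicity map `Ker(ρ(g) - 1) → H²(G, A)` is surjective. -/
theorem cft_πEven_surjective :
    Function.Surjective (Rep.FiniteCyclicGroup.groupCohomologyπEven A g hg 2 even_two).hom := by
  rw [← ModuleCat.epi_iff_surjective]
  unfold Rep.FiniteCyclicGroup.groupCohomologyπEven
  infer_instance

end Cyclic

section Field

variable (K L : Type) [Field K] [Field L] [Algebra K L] [FiniteDimensional K L] [IsGalois K L]
  [IsCyclic (L ≃ₐ[K] L)]

set_option backward.isDefEq.respectTransparency false in
omit [IsCyclic (L ≃ₐ[K] L)] in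
/-- The norm of the representation `Lˣ` of `Gal(L/K)` is the field norm. -/
theorem cft_norm_val (y : Rep.ofAlgebraAutOnUnits K L) :
    ((Additive.toMul (show Additive Lˣ from
      ((Rep.ofAlgebraAutOnUnits K L).norm.hom.toLinearMap y)) : Lˣ) : L)
      = algebraMap K L (Algebra.norm K ((Additive.toMul (show Additive Lˣ from y) : Lˣ) : L)) := by
  have := norm_ofAlgebraAutOnUnits_eq (K := K) (L := L) (Additive.toMul (show Additive Lˣ from y))
  exact this

set_option backward.isDefEq.respectTransparency false in
/-- For a finite cyclic Galois extension `L / K`: `#H²(Gal(L/K), Lˣ) = [Kˣ : N_{L/K} Lˣ]`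
(both sides are `0` when infinite). -/
theorem card_H2_cyclic_eq_norm_index :
    Nat.card (groupCohomology.H2 (Rep.ofAlgebraAutOnUnits K L)) =
      (Units.map (Algebra.norm K : L →* K)).range.index := by
  classical
  obtain ⟨g, hg⟩ := IsCyclic.exists_generator (α := L ≃ₐ[K] L)
  letI : CommGroup (L ≃ₐ[K] L) := IsCyclic.commGroup
  let ψ : Additive Kˣ →+ (Rep.ofAlgebraAutOnUnits K L) :=
    (MonoidHom.toAdditive (Units.map (algebraMap K L : K →* L)) : Additive Kˣ →+ Additive Lˣ)
  have hinv : ∀ x : Additive Kˣ, ψ x ∈
      LinearMap.ker (applyAsHom (Rep.ofAlgebraAutOnUnits K L) g -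
        𝟙 (Rep.ofAlgebraAutOnUnits K L)).hom.toLinearMap := by
    intro x
    rw [LinearMap.mem_ker]
    simp only [sub_hom, Representation.IntertwiningMap.sub_toLinearMap, LinearMap.sub_apply,
      Representation.IntertwiningMap.coe_toLinearMap]
    rw [sub_eq_zero]
    change Additive.ofMul (g • Units.map (algebraMap K L : K →* L) x.toMul) =
      Additive.ofMul (Units.map (algebraMap K L : K →* L) x.toMul)
    congr 1
    ext
    simp [AlgEquiv.smul_units_def]
  let π := (Rep.FiniteCyclicGroup.groupCohomologyπEven (Rep.ofAlgebraAutOnUnits K L) g hg 2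
    even_two).hom
  have hπs : Function.Surjective π := cft_πEven_surjective _ g hg
  let φ := ψ.codRestrict _ hinv
  let f : Kˣ →* Multiplicative (groupCohomology.H2 (Rep.ofAlgebraAutOnUnits K L)) :=
    AddMonoidHom.toMultiplicativeRight (π.toAddMonoidHom.comp φ)
  have hfx : ∀ x : Kˣ, f x = Multiplicative.ofAdd (π (φ (Additive.ofMul x))) := fun x => rfl
  have hsurj : Function.Surjective f := by
    intro y
    obtain ⟨z, hz⟩ := hπs y.toAdd
    obtain ⟨w, hw⟩ := z
    have hgw : g • (Additive.toMul (show Additive Lˣ from w)) =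
        Additive.toMul (show Additive Lˣ from w) := by
      rw [LinearMap.mem_ker] at hw
      simp only [sub_hom, Representation.IntertwiningMap.sub_toLinearMap, LinearMap.sub_apply,
        Representation.IntertwiningMap.coe_toLinearMap] at hw
      rw [sub_eq_zero] at hw
      exact congrArg Additive.toMul hw
    have hfix : ∀ σ : L ≃ₐ[K] L,
        σ ((Additive.toMul (show Additive Lˣ from w) : Lˣ) : L) =
          ((Additive.toMul (show Additive Lˣ from w) : Lˣ) : L) := by
      intro σ
      obtain ⟨n, rfl⟩ := Subgroup.mem_zpowers_iff.1 (hg σ)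
      have h1 : ∀ m : ℤ, (g ^ m) • (Additive.toMul (show Additive Lˣ from w)) =
          Additive.toMul (show Additive Lˣ from w) := by
        intro m
        have hmem : Additive.toMul (show Additive Lˣ from w) ∈
            MulAction.fixedBy Lˣ g := hgw
        exact MulAction.fixedBy_subset_fixedBy_zpow Lˣ g m hmem
      have := congrArg Units.val (h1 n)
      simpa [AlgEquiv.smul_units_def] using this
    obtain ⟨a, ha⟩ := (IsGalois.mem_range_algebraMap_iff_fixed (F := K) (E := L) _).2 hfix
    have ha0 : a ≠ 0 := by
      rintro rfl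
      rw [map_zero] at ha
      exact (Units.ne_zero _ ha.symm)
    refine ⟨Units.mk0 a ha0, ?_⟩
    rw [hfx]
    have : φ (Additive.ofMul (Units.mk0 a ha0)) = ⟨w, hw⟩ := by
      apply Subtype.ext
      change Additive.ofMul (Units.map (algebraMap K L : K →* L) (Units.mk0 a ha0)) = w
      apply Additive.toMul.injective
      ext
      simpa using ha
    rw [this, hz]
    rfl
  have hker : f.ker = (Units.map (Algebra.norm K : L →* K)).range := by
    ext x
    rw [MonoidHom.mem_ker, hfx]
    have h0 : Multiplicative.ofAdd (π (φ (Additive.ofMul x))) = 1 ↔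
        π (φ (Additive.ofMul x)) = 0 := Iff.rfl
    rw [h0, Rep.FiniteCyclicGroup.groupCohomologyπEven_eq_zero_iff, MonoidHom.mem_range]
    constructor
    · rintro ⟨y, hy⟩
      refine ⟨Additive.toMul (show Additive Lˣ from y), ?_⟩
      have h1 := cft_norm_val K L y
      have h2 : ((Additive.toMul (show Additive Lˣ from
          ((Rep.ofAlgebraAutOnUnits K L).norm.hom.toLinearMap y)) : Lˣ) : L) = algebraMap K L x :=
        congrArg (fun t : Additive Lˣ => ((Additive.toMul t : Lˣ) : L)) hy
      apply Units.ext
      apply (algebraMap K L).injective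
      exact h1.symm.trans h2
    · rintro ⟨u, hu⟩
      refine ⟨(Additive.ofMul u : Additive Lˣ), ?_⟩
      have h1 := cft_norm_val K L (Additive.ofMul u : Additive Lˣ)
      apply Additive.toMul.injective
      apply Units.ext
      refine Eq.trans h1 ?_
      rw [← hu]
      rfl
  rw [← hker, Subgroup.index_ker, MonoidHom.range_eq_top.2 hsurj, Subgroup.card_top]
  rfl

end Field

end Fermat.Agent.H44.CFT
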