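/-
P-CFT LOCAL, row LOC-4 (helper44): interface Props for the order bound
`#H²(Gal(F/E), Fˣ) ∣ [F : E]` for `p`-groups.  Mathlib only.

* `InfRes2MiddleStatement` : middle exactness of the inflation-restriction sequence in degree 2
  (the only part of LOC-3 (b) that the counting argument needs).
-/
import Mathlib

set_option autoImplicit false

namespace Fermat.Agent.H44.CFT

open CategoryTheory groupCohomology Rep

/-- **Inflation-restriction in degree 2, exactness in the middle** (statement).
For a group `G`, a normal subgroup `S`, a `G`-module `A` with `H¹(S, A) = 0`: every class
in `H²(G, A)` whose restriction to `S` vanishes is inflated from `H²(G ⧸ S, A^S)`.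
The maps are literally Mathlib's `groupCohomology.map`, in the same shape as
`groupCohomology.H1InfRes`.  (Stated over any commutative coefficient ring `k : Type`, because
for an abstract `A : Rep ℤ G` the module instance `A.hV2` is not syntactically
`AddCommGroup.toIntModule`; the application is `k = ℤ`.) -/
def InfRes2MiddleStatement : Prop :=
  ∀ (k G : Type) [CommRing k] [Group G] (A : Rep k G) (S : Subgroup G) [S.Normal],
    Subsingleton (groupCohomology.H1 (res S.subtype A)) →
    ∀ x : groupCohomology.H2 A,
      (groupCohomology.map S.subtype (𝟙 (res S.subtype A)) 2).hom x = 0 →
      ∃ y : groupCohomology.H2 (A.quotientToInvariants S),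
        (groupCohomology.map (QuotientGroup.mk' S)
          (ofHom <| A.ρ.quotientToInvariants_lift S) 2).hom y = x

end Fermat.Agent.H44.CFT
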