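/-
P-CFT LOCAL, row LOC-4 (helper44), Part A: the order bound for `p`-groups in pure group
cohomology.  Mathlib only, conditional on `InfRes2MiddleStatement`.

Main result: `pGroup_card_H2_dvd`.
-/
import Fermat.Agent.H44.CFT.InfRes2Defs

set_option autoImplicit false

namespace Fermat.Agent.H44.CFT

open CategoryTheory groupCohomology Rep

/-- Counting in a sequence `Z → X → Y` which is exact in the middle. -/
theorem cft_card_dvd_of_ker_le_range {X Y Z : Type*} [AddCommGroup X] [AddCommGroup Y]
    [AddCommGroup Z] (r : X →+ Y) (i : Z →+ X) (h : ∀ x, r x = 0 → ∃ z, i z = x)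
    [Finite Y] [Finite Z] {a b : ℕ} (ha : Nat.card Z ∣ a) (hb : Nat.card Y ∣ b) :
    Finite X ∧ Nat.card X ∣ a * b := by
  have hle : r.ker ≤ i.range := fun x hx => h x hx
  have h1 : Nat.card r.ker ∣ Nat.card Z :=
    (AddSubgroup.card_dvd_of_le hle).trans (AddSubgroup.card_range_dvd i)
  have h2 : Nat.card (X ⧸ r.ker) ∣ Nat.card Y := by
    rw [Nat.card_congr (QuotientAddGroup.quotientKerEquivRange r).toEquiv]
    exact AddSubgroup.card_addSubgroup_dvd_card _
  have h3 := AddSubgroup.card_eq_card_quotient_mul_card_addSubgroup r.ker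
  have hfinr : Finite i.range := Set.finite_range i
  have hfinker : Finite r.ker :=
    Finite.of_injective (fun x : r.ker => (⟨x.1, hle x.2⟩ : i.range))
      (fun x y hxy => Subtype.ext (by simpa using congrArg Subtype.val hxy))
  have hfinq : Finite (X ⧸ r.ker) :=
    Finite.of_equiv _ (QuotientAddGroup.quotientKerEquivRange r).toEquiv.symm
  have hne : Nat.card X ≠ 0 := by
    rw [h3]
    exact Nat.mul_ne_zero Nat.card_pos.ne' Nat.card_pos.ne'
  refine ⟨Nat.finite_of_card_ne_zero hne, ?_⟩
  rw [h3, mul_comm]
  exact Nat.mul_dvd_mul (h1.trans ha) (h2.trans hb)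

/-- Counting in a sequence `Z → X → Y` of linear maps which is exact in the middle. -/
theorem cft_card_dvd_of_ker_le_range_linear {R X Y Z : Type*} [Ring R] [AddCommGroup X]
    [AddCommGroup Y] [AddCommGroup Z] [Module R X] [Module R Y] [Module R Z]
    (r : X →ₗ[R] Y) (i : Z →ₗ[R] X) (h : ∀ x, r x = 0 → ∃ z, i z = x)
    [Finite Y] [Finite Z] {a b : ℕ} (ha : Nat.card Z ∣ a) (hb : Nat.card Y ∣ b) :
    Finite X ∧ Nat.card X ∣ a * b :=
  cft_card_dvd_of_ker_le_range r.toAddMonoidHom i.toAddMonoidHom h ha hb

variable {k : Type} [CommRing k]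

/-- `H²` of the trivial group vanishes. -/
theorem h2_subsingleton_of_subsingleton {G : Type} [Group G] [Subsingleton G] (A : Rep k G) :
    Subsingleton (groupCohomology.H2 A) := by
  refine ⟨fun x y => ?_⟩
  have key : ∀ z : groupCohomology.H2 A, z = 0 := by
    intro z
    induction z using H2_induction_on with | @h f =>
    rw [H2π_eq_zero_iff]
    refine ⟨fun _ => f (1, 1), ?_⟩
    funext g
    have hg : g = (1, 1) := Subsingleton.elim _ _
    subst hg
    simp
  rw [key x, key y]

/-- **Order bound for `p`-groups, group-cohomological form.**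
Let `G` be a group of order `p ^ n` and `A` a `G`-module such that, for every injective
homomorphism `ι : H →* G` (think: subgroup `H ≤ G`),

* (a) `H¹(H, A) = 0`;
* (b) for every normal subgroup `N ≤ H` of index `p`, `#H²(H ⧸ N, A^N)` is finite and divides `p`.

Then `H²(G, A)` is finite of order dividing `p ^ n = #G`
(given inflation-restriction in degree 2). -/
theorem pGroup_card_H2_dvd (hIR : InfRes2MiddleStatement) (p : ℕ) [hp : Fact p.Prime] :
    ∀ (n : ℕ) (G : Type) [Group G] [Finite G] (A : Rep k G), Nat.card G = p ^ n →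
      (∀ (H : Type) [Group H] (ι : H →* G), Function.Injective ι →
          Subsingleton (groupCohomology.H1 (res ι A))) →
      (∀ (H : Type) [Group H] (ι : H →* G), Function.Injective ι →
          ∀ (N : Subgroup H) [N.Normal], N.index = p →
            Finite (groupCohomology.H2 ((res ι A).quotientToInvariants N)) ∧
            Nat.card (groupCohomology.H2 ((res ι A).quotientToInvariants N)) ∣ p) →
      Finite (groupCohomology.H2 A) ∧ Nat.card (groupCohomology.H2 A) ∣ p ^ n := by
  intro n
  induction n with
  | zero =>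
    intro G _ _ A hG _ _
    have hsG : Subsingleton G := by
      rw [pow_zero] at hG
      exact (Nat.card_eq_one_iff_unique.1 hG).1
    have hs := h2_subsingleton_of_subsingleton A
    refine ⟨inferInstance, ?_⟩
    rw [pow_zero, Nat.dvd_one]
    exact Nat.card_eq_one_iff_unique.2 ⟨hs, ⟨0⟩⟩
  | succ n ih =>
    intro G _ _ A hG hH1 hcyc
    obtain ⟨S, hS⟩ := Sylow.exists_subgroup_card_pow_prime p (n := n) (G := G)
      (by rw [hG]; exact pow_dvd_pow p (Nat.le_succ n))
    have hidx : S.index = p := by
      have h := S.index_mul_card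
      rw [hS, hG, pow_succ'] at h
      exact Nat.eq_of_mul_eq_mul_right (pow_pos hp.out.pos n) h
    have hSn : S.Normal := Subgroup.normal_of_index_eq_minFac_card (by
      rw [hidx, hG, Nat.Prime.pow_minFac hp.out (Nat.succ_ne_zero n)])
    obtain ⟨hfS, hdS⟩ := ih S (res S.subtype A) hS
      (fun H _ ι hι => hH1 H (S.subtype.comp ι) (S.subtype_injective.comp hι))
      (fun H _ ι hι N _ hN => hcyc H (S.subtype.comp ι) (S.subtype_injective.comp hι) N hN)
    have hQ : Finite (groupCohomology.H2 (A.quotientToInvariants S)) ∧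
        Nat.card (groupCohomology.H2 (A.quotientToInvariants S)) ∣ p :=
      hcyc G (MonoidHom.id G) Function.injective_id S hidx
    obtain ⟨hfQ, hdQ⟩ := hQ
    have hmid := hIR k G A S (hH1 S S.subtype S.subtype_injective)
    let r : groupCohomology.H2 A →ₗ[k] groupCohomology.H2 (res S.subtype A) :=
      (groupCohomology.map S.subtype (𝟙 (res S.subtype A)) 2).hom
    let i : groupCohomology.H2 (A.quotientToInvariants S) →ₗ[k] groupCohomology.H2 A :=
      (groupCohomology.map (QuotientGroup.mk' S)
          (ofHom <| A.ρ.quotientToInvariants_lift S) 2).hom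
    have := cft_card_dvd_of_ker_le_range_linear r i hmid hdQ hdS
    rwa [← pow_succ'] at this

end Fermat.Agent.H44.CFT
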