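/-
P-CFT LOCAL, row LOC-4 (helper44): the order bound
`#H²(Gal(F/E), Fˣ) ∣ [F : E]` for a finite Galois extension `F / E` whose Galois group is a
`p`-group, given

* (H1) the norm index bound on all cyclic layers of degree `p` (`LayerNormBound`), and
* (H2) inflation-restriction in degree 2 (`InfRes2MiddleStatement`).

Mathlib only.
-/
import Fermat.Agent.H44.CFT.OrderBoundGroup
import Fermat.Agent.H44.CFT.CyclicH2
import Fermat.Agent.H44.CFT.FieldDict

set_option autoImplicit false
set_option linter.style.haveILetI false

namespace Fermat.Agent.H44.CFT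

open CategoryTheory groupCohomology Rep

/-- Layer hypothesis, cohomological form: for every intermediate field `M` of `F / E` and every
intermediate field `M'` of `F / M` which is Galois of degree `p` over `M`, the group
`H²(Gal(M'/M), M'ˣ)` is finite of order dividing `p`. -/
def LayerH2Bound (E F : Type) [Field E] [Field F] [Algebra E F] (p : ℕ) : Prop :=
  ∀ (M : IntermediateField E F) (M' : IntermediateField M F), IsGalois M M' →
    Module.finrank M M' = p →
    Finite (groupCohomology.H2 (Rep.ofAlgebraAutOnUnits M M')) ∧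
      Nat.card (groupCohomology.H2 (Rep.ofAlgebraAutOnUnits M M')) ∣ p

/-- Layer hypothesis, norm index form: for every intermediate field `M` of `F / E` and every
intermediate field `M'` of `F / M` which is Galois of degree `p` over `M`, the norm group
`N_{M'/M} M'ˣ` has index dividing `p` in `Mˣ` (the local norm index theorem gives `= p`). -/
def LayerNormBound (E F : Type) [Field E] [Field F] [Algebra E F] (p : ℕ) : Prop :=
  ∀ (M : IntermediateField E F) (M' : IntermediateField M F), IsGalois M M' →
    Module.finrank M M' = p →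
    (Units.map (Algebra.norm M : M' →* M)).range.index ∣ p

section

variable (p : ℕ) [hp : Fact p.Prime] (E F : Type) [Field E] [Field F] [Algebra E F]
  [FiniteDimensional E F]

theorem layerH2Bound_of_normBound (h : LayerNormBound E F p) : LayerH2Bound E F p := by
  intro M M' hG hd
  haveI := hG
  have hcard : Nat.card (M' ≃ₐ[M] M') = p := by
    rw [IsGalois.card_aut_eq_finrank, hd]
  haveI : IsCyclic (M' ≃ₐ[M] M') := isCyclic_of_prime_card hcard
  have hdvd : Nat.card (groupCohomology.H2 (Rep.ofAlgebraAutOnUnits M M')) ∣ p := by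
    rw [card_H2_cyclic_eq_norm_index M M']
    exact h M M' hG hd
  refine ⟨Nat.finite_of_card_ne_zero ?_, hdvd⟩
  intro h0
  rw [h0] at hdvd
  exact hp.out.ne_zero (Nat.eq_zero_of_zero_dvd hdvd)

variable [IsGalois E F]

/-- **LOC-4, cohomological layer hypothesis.** -/
theorem orderBound_of_layerH2 (hIR : InfRes2MiddleStatement)
    (hG : IsPGroup p (F ≃ₐ[E] F)) (hL : LayerH2Bound E F p) :
    Finite (groupCohomology.H2 (Rep.ofAlgebraAutOnUnits E F)) ∧
      Nat.card (groupCohomology.H2 (Rep.ofAlgebraAutOnUnits E F)) ∣ Module.finrank E F := by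
  obtain ⟨n, hn⟩ := IsPGroup.iff_card.1 hG
  rw [← IsGalois.card_aut_eq_finrank, hn]
  refine pGroup_card_H2_dvd hIR p n (F ≃ₐ[E] F) (Rep.ofAlgebraAutOnUnits E F) hn
    (fun H _ ι hι => h1_res_subsingleton ι hι) ?_
  intro H _ ι hι N _ hN
  obtain ⟨e⟩ := h2_layer_equiv ι hι N
  obtain ⟨hf, hd⟩ := hL (layerBase ι) (layerTop ι hι N) inferInstance
    (by rw [layer_finrank, hN])
  exact ⟨Finite.of_equiv _ e.symm, by rw [Nat.card_congr e]; exact hd⟩

/-- **LOC-4 (order bound).** Let `F / E` be a finite Galois extension whose Galois group is a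
`p`-group.  Assume inflation-restriction in degree 2 and the norm index bound on all layers of
degree `p`.  Then `H²(Gal(F/E), Fˣ)` is finite and its order divides `[F : E]`. -/
theorem orderBound (hIR : InfRes2MiddleStatement)
    (hG : IsPGroup p (F ≃ₐ[E] F)) (hL : LayerNormBound E F p) :
    Finite (groupCohomology.H2 (Rep.ofAlgebraAutOnUnits E F)) ∧
      Nat.card (groupCohomology.H2 (Rep.ofAlgebraAutOnUnits E F)) ∣ Module.finrank E F :=
  orderBound_of_layerH2 p E F hIR hG (layerH2Bound_of_normBound p E F hL)

end

end Fermat.Agent.H44.CFT
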