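/-
P-CFT LOCAL, row LOC-4 (helper44): the order bound with inflation-restriction discharged
(helper75's `Fermat.Agent.H75.Coh2.infRes2Middle_type0`).  The only remaining hypothesis is the
norm index bound on the cyclic layers of degree `p`.
-/
import Fermat.Agent.H44.CFT.OrderBound
import Fermat.Agent.H75.Coh2Adapters

set_option autoImplicit false

namespace Fermat.Agent.H44.CFT

open CategoryTheory groupCohomology Rep

/-- Inflation-restriction in degree 2, exactness in the middle (proved by helper75). -/
theorem infRes2Middle : InfRes2MiddleStatement :=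
  Fermat.Agent.H75.Coh2.infRes2Middle_type0

/-- **LOC-4 (order bound), unconditional in the group cohomology.**
`F / E` finite Galois with `Gal(F/E)` a `p`-group, norm index bound on all layers of degree `p`
⟹ `H²(Gal(F/E), Fˣ)` is finite of order dividing `[F : E]`. -/
theorem orderBound_of_layerNorm (p : ℕ) [Fact p.Prime] (E F : Type) [Field E] [Field F]
    [Algebra E F] [FiniteDimensional E F] [IsGalois E F]
    (hG : IsPGroup p (F ≃ₐ[E] F)) (hL : LayerNormBound E F p) :
    Finite (groupCohomology.H2 (Rep.ofAlgebraAutOnUnits E F)) ∧
      Nat.card (groupCohomology.H2 (Rep.ofAlgebraAutOnUnits E F)) ∣ Module.finrank E F :=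
  orderBound p E F infRes2Middle hG hL

/-- Same with the cohomological layer hypothesis. -/
theorem orderBound_of_layerH2' (p : ℕ) [Fact p.Prime] (E F : Type) [Field E] [Field F]
    [Algebra E F] [FiniteDimensional E F] [IsGalois E F]
    (hG : IsPGroup p (F ≃ₐ[E] F)) (hL : LayerH2Bound E F p) :
    Finite (groupCohomology.H2 (Rep.ofAlgebraAutOnUnits E F)) ∧
      Nat.card (groupCohomology.H2 (Rep.ofAlgebraAutOnUnits E F)) ∣ Module.finrank E F :=
  orderBound_of_layerH2 p E F infRes2Middle hG hL

end Fermat.Agent.H44.CFT
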