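/-
P-CFT LOCAL, row LOC-4 (helper44): adapter.  The layer hypothesis `LayerNormBound` follows from
the norm index bound on pairs `M ≤ M'` of intermediate fields of `F / E`
(with `M'` viewed over `M` through `IntermediateField.extendScalars`).
-/
import Fermat.Agent.H44.CFT.OrderBoundFinal

set_option autoImplicit false

namespace Fermat.Agent.H44.CFT

/-- Layer hypothesis on pairs `M ≤ M'` of intermediate fields of `F / E`. -/
def LayerNormBoundPairs (E F : Type) [Field E] [Field F] [Algebra E F] (p : ℕ) : Prop :=
  ∀ (M M' : IntermediateField E F) (h : M ≤ M'),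
    IsGalois M (IntermediateField.extendScalars h) →
    Module.finrank M (IntermediateField.extendScalars h) = p →
    (Units.map (Algebra.norm M :
      (IntermediateField.extendScalars h) →* M)).range.index ∣ p

theorem layerNormBound_of_pairs (E F : Type) [Field E] [Field F] [Algebra E F] (p : ℕ)
    (h : LayerNormBoundPairs E F p) : LayerNormBound E F p := by
  intro M M'' hG hd
  have hle : M ≤ M''.restrictScalars E := by
    intro x hx
    exact M''.algebraMap_mem ⟨x, hx⟩
  have heq : IntermediateField.extendScalars hle = M'' := by
    ext x
    rfl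
  have key := h M (M''.restrictScalars E) hle
  rw [heq] at key
  exact key hG hd

/-- **LOC-4**, with the layer hypothesis on pairs of intermediate fields of `F / E`. -/
theorem orderBound_of_pairs (p : ℕ) [Fact p.Prime] (E F : Type) [Field E] [Field F]
    [Algebra E F] [FiniteDimensional E F] [IsGalois E F]
    (hG : IsPGroup p (F ≃ₐ[E] F)) (hL : LayerNormBoundPairs E F p) :
    Finite (groupCohomology.H2 (Rep.ofAlgebraAutOnUnits E F)) ∧
      Nat.card (groupCohomology.H2 (Rep.ofAlgebraAutOnUnits E F)) ∣ Module.finrank E F :=
  orderBound_of_layerNorm p E F hG (layerNormBound_of_pairs E F p hL)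

end Fermat.Agent.H44.CFT
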